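/-
S32 (flatness at `p` of the Galois representation of a Hecke–Galois datum, `p ∤ N`), architecture
(helper3).  **Definitions shared by all S32 packages.**

Route: `V = H.ρ.V` (free of rank 2 over `T`) embeds, `T`-linearly and `G_ℚ`-equivariantly, into a
finite `T`-module `Λ` which is *admissible*: every `Λ / p^m Λ` has a Hopf order over `ℤ_(p)`
(`AlphHasOrder`).  `Λ` is a finite product, over the points `ψ : T → R` of `T`, of
`R'' ⊗_{ℤ_p} Ta_p`, `Ta_p` the Tate module package of `J₀(N)`; the embedding comes from the rigidity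
of residually absolutely irreducible representations.  By Artin–Rees `V / I V` is then a
sub-quotient of `Λ / p^m Λ`, and Hopf orders pass to sub-quotients.

* `s32Act r`     : the `G_ℚ`-action of a representation `r : G_ℚ →* End_A M`;
* `s32K p Λ m`   : the subgroup `p^m Λ`;
* `s32SubAct`, `s32QuotAct` : the action on a stable subgroup / on the quotient by it;
* `S32Adm p Λ`   : admissibility;
* `S32Emb p ρ J` : `V` maps equivariantly to an admissible `Λ` with kernel `≤ J V`.
-/
import Mathlib
import Fermat.Agent.Lib.Alpha.Hopf.Closure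

set_option autoImplicit false
set_option linter.unusedSectionVars false
set_option linter.style.haveILetI false

namespace Fermat.Agent.S32L

noncomputable section

open Fermat.Agent.Alpha

local notation "Qb" => AlgebraicClosure ℚ
local notation "GQ" => (AlgebraicClosure ℚ ≃ₐ[ℚ] AlgebraicClosure ℚ)

/-- the `G_ℚ`-action of a representation -/
@[reducible] def s32Act {A M : Type} [CommRing A] [AddCommGroup M] [Module A M]
    (r : GQ →* Module.End A M) : DistribMulAction GQ M :=
  DistribMulAction.compHom M r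

theorem s32Act_smul {A M : Type} [CommRing A] [AddCommGroup M] [Module A M]
    (r : GQ →* Module.End A M) (σ : GQ) (x : M) :
    (letI := s32Act r; σ • x) = r σ x := rfl

section Sub

variable {G M : Type} [Monoid G] [AddCommGroup M] [DistribMulAction G M]

/-- the action on a stable subgroup -/
@[reducible] def s32SubAct (K : AddSubgroup M) (hK : ∀ (σ : G), ∀ x ∈ K, σ • x ∈ K) :
    DistribMulAction G ↥K where
  smul σ x := ⟨σ • (x : M), hK σ x x.2⟩
  one_smul x := Subtype.ext (one_smul G (x : M))
  mul_smul σ τ x := Subtype.ext (mul_smul σ τ (x : M))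
  smul_zero σ := Subtype.ext (smul_zero σ)
  smul_add σ x y := Subtype.ext (smul_add σ (x : M) (y : M))

theorem s32SubAct_coe (K : AddSubgroup M) (hK : ∀ (σ : G), ∀ x ∈ K, σ • x ∈ K) (σ : G) (x : ↥K) :
    (((letI := s32SubAct K hK; σ • x) : ↥K) : M) = σ • (x : M) := rfl

/-- the action on the quotient by a stable subgroup -/
@[reducible] def s32QuotAct (K : AddSubgroup M) (hK : ∀ (σ : G), ∀ x ∈ K, σ • x ∈ K) :
    DistribMulAction G (M ⧸ K) where
  smul σ := QuotientAddGroup.map K K (DistribSMul.toAddMonoidHom M σ) (fun x hx => hK σ x hx)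
  one_smul x := by
    induction x using QuotientAddGroup.induction_on with
    | H x => exact congrArg (QuotientAddGroup.mk : M → M ⧸ K) (one_smul G x)
  mul_smul σ τ x := by
    induction x using QuotientAddGroup.induction_on with
    | H x => exact congrArg (QuotientAddGroup.mk : M → M ⧸ K) (mul_smul σ τ x)
  smul_zero σ := map_zero _
  smul_add σ x y := map_add _ x y

theorem s32QuotAct_mk (K : AddSubgroup M) (hK : ∀ (σ : G), ∀ x ∈ K, σ • x ∈ K) (σ : G) (x : M) :
    (letI := s32QuotAct K hK; σ • (QuotientAddGroup.mk x : M ⧸ K)) =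
      (QuotientAddGroup.mk (σ • x) : M ⧸ K) := rfl

/-- the subgroup `p ^ m • M` -/
def s32K (p : ℕ) (M : Type) [AddCommGroup M] (m : ℕ) : AddSubgroup M :=
  (nsmulAddMonoidHom (α := M) (p ^ m)).range

variable (p : ℕ)

theorem mem_s32K {m : ℕ} {x : M} : x ∈ s32K p M m ↔ ∃ y : M, p ^ m • y = x := Iff.rfl

theorem s32K_stable (m : ℕ) (σ : G) (x : M) (hx : x ∈ s32K p M m) : σ • x ∈ s32K p M m := by
  obtain ⟨y, rfl⟩ := hx
  exact ⟨σ • y, (smul_comm σ (p ^ m) y).symm⟩

end Sub

/-- **admissibility**: all the quotients `Λ / p^m Λ` are finite and have a Hopf order over `ℤ_(p)` -/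
def S32Adm (p : ℕ) (Λ : Type) [AddCommGroup Λ] [DistribMulAction GQ Λ] : Prop :=
  ∀ m : ℕ, Finite (Λ ⧸ s32K p Λ m) ∧
    @AlphHasOrder p (Λ ⧸ s32K p Λ m) _ (s32QuotAct (s32K p Λ m) (fun σ x hx => s32K_stable p m σ x hx))

/-- `V` maps `T`-linearly and equivariantly to an admissible finite `T`-module with kernel `≤ J V` -/
def S32Emb (p : ℕ) {T V : Type} [CommRing T] [AddCommGroup V] [Module T V]
    (ρ : GQ →* Module.End T V) (J : Ideal T) : Prop :=
  ∃ (Λ : Type) (_ : AddCommGroup Λ) (_ : Module T Λ) (_ : Module.Finite T Λ)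
    (_ : DistribMulAction GQ Λ),
    S32Adm p Λ ∧
    ∃ j : V →ₗ[T] Λ, (∀ (σ : GQ) (v : V), j (ρ σ v) = σ • j v) ∧
      LinearMap.ker j ≤ J • (⊤ : Submodule T V)

end

end Fermat.Agent.S32L
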