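/-
S32 architecture (helper3): **closure properties of `AlphHasOrder`** used by the lattice argument.

* `s32g_congr`       : independence of the (pointwise equal) action instance;
* `s32g_subsingleton`: the trivial module has an order;
* `s32g_pi`          : finite powers `Fin d → V`;
* `s32g_subquot`     : **sub-quotients**: if `f : V → Q`, `g : V → W` are equivariant, `g` is onto and
  `ker f ≤ ker g`, an order of `Q` gives an order of `W`.
-/
import Mathlib
import Fermat.Agent.Lib.S32.Defs

set_option autoImplicit false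
set_option linter.unusedSectionVars false
set_option linter.style.haveILetI false

namespace Fermat.Agent.S32L

open Fermat.Agent.Alpha

local notation "Qb" => AlgebraicClosure ℚ
local notation "GQ" => (AlgebraicClosure ℚ ≃ₐ[ℚ] AlgebraicClosure ℚ)

variable {ℓ : ℕ} [Fact ℓ.Prime]

/-- transport of an order along an equivariant additive bijection, for arbitrary instances -/
theorem s32g_congr {V W : Type} [AddCommGroup V] [AddCommGroup W] (iV : DistribMulAction GQ V)
    (iW : DistribMulAction GQ W) (h : @AlphHasOrder ℓ V _ iV) (φ : W →+ V)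
    (hφ : Function.Injective φ)
    (hφσ : ∀ (σ : GQ) (w : W), φ (iW.toMulAction.toSMul.smul σ w) = iV.toMulAction.toSMul.smul σ (φ w)) :
    @AlphHasOrder ℓ W _ iW :=
  @AlphHasOrder.of_injective ℓ _ V W _ iV _ iW h φ hφ hφσ

/-- the trivial module has an order -/
theorem s32g_subsingleton {V : Type} [AddCommGroup V] [DistribMulAction GQ V] [Subsingleton V] :
    AlphHasOrder ℓ V := by
  refine ⟨⊥, ?_, ?_, ?_, ?_⟩
  · exact Subalgebra.fg_bot_toSubmodule
  · intro f hf σ x
    obtain ⟨r, rfl⟩ := Algebra.mem_bot.mp hf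
    show algebraMap ↥(GaloisRep.ratLocalizedAt ℓ) (V → Qb) r (σ • x) =
      σ (algebraMap ↥(GaloisRep.ratLocalizedAt ℓ) (V → Qb) r x)
    rw [Pi.algebraMap_apply, Pi.algebraMap_apply]
    have h1 : algebraMap ↥(GaloisRep.ratLocalizedAt ℓ) Qb r = algebraMap ℚ Qb (r : ℚ) := rfl
    rw [h1, AlgEquiv.commutes]
  · intro x y hxy
    exact absurd (Subsingleton.elim x y) hxy
  · intro f hf
    refine ⟨1, fun _ => f, fun _ => 1, fun _ => hf, fun _ => Subalgebra.one_mem _, fun x y => ?_⟩
    rw [Fin.sum_univ_one]
    show f (x + y) = f x * 1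
    rw [mul_one, Subsingleton.elim (x + y) x]

/-- finite powers -/
theorem s32g_pi {V : Type} [AddCommGroup V] [DistribMulAction GQ V] (h : AlphHasOrder ℓ V)
    (d : ℕ) : AlphHasOrder ℓ (Fin d → V) := by
  induction d with
  | zero => exact s32g_subsingleton
  | succ d ih =>
    have hprod : AlphHasOrder ℓ (V × (Fin d → V)) := h.prod ih
    let φ : (Fin (d + 1) → V) →+ V × (Fin d → V) :=
      { toFun := fun x => (x 0, fun i => x i.succ)
        map_zero' := rfl
        map_add' := fun x y => rfl }
    refine hprod.of_injective φ ?_ (fun σ w => rfl)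
    intro x y hxy
    funext i
    have h1 : x 0 = y 0 := congrArg Prod.fst hxy
    have h2 : (fun i : Fin d => x i.succ) = fun i => y i.succ := congrArg Prod.snd hxy
    refine Fin.cases h1 (fun i => ?_) i
    exact congrFun h2 i

/-- **sub-quotients** -/
theorem s32g_subquot {V Q W : Type} [AddCommGroup V] [DistribMulAction GQ V] [AddCommGroup Q]
    [DistribMulAction GQ Q] [Finite Q] [AddCommGroup W] [DistribMulAction GQ W]
    (hQ : AlphHasOrder ℓ Q) (f : V →+ Q) (g : V →+ W)
    (hf : ∀ (σ : GQ) (v : V), f (σ • v) = σ • f v) (hg : ∀ (σ : GQ) (v : V), g (σ • v) = σ • g v)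
    (hsurj : Function.Surjective g) (hker : ∀ v, f v = 0 → g v = 0) : AlphHasOrder ℓ W := by
  classical
  have hstab : ∀ (σ : GQ), ∀ x ∈ f.range, σ • x ∈ f.range := by
    rintro σ _ ⟨v, rfl⟩
    exact ⟨σ • v, hf σ v⟩
  letI : DistribMulAction GQ ↥f.range := s32SubAct f.range hstab
  have hU : AlphHasOrder ℓ ↥f.range :=
    hQ.of_injective f.range.subtype Subtype.coe_injective (fun σ w => rfl)
  haveI : Finite ↥f.range := Finite.of_injective _ Subtype.coe_injective
  letI : Fintype ↥f.range := Fintype.ofFinite _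
  have hrr : Function.Surjective f.rangeRestrict := f.rangeRestrict_surjective
  have hright : Function.RightInverse (Function.surjInv hrr) f.rangeRestrict :=
    Function.surjInv_eq hrr
  have hkerle : f.rangeRestrict.ker ≤ g.ker := by
    intro v hv
    rw [AddMonoidHom.mem_ker] at hv ⊢
    apply hker
    exact congrArg Subtype.val hv
  let π : ↥f.range →+ W :=
    f.rangeRestrict.liftOfRightInverse (Function.surjInv hrr) hright ⟨g, hkerle⟩
  have hπ : ∀ v, π (f.rangeRestrict v) = g v := fun v =>
    AddMonoidHom.liftOfRightInverse_comp_apply _ _ hright ⟨g, hkerle⟩ v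
  refine hU.of_surjective π ?_ ?_
  · intro w
    obtain ⟨v, rfl⟩ := hsurj w
    exact ⟨f.rangeRestrict v, hπ v⟩
  · intro σ u
    obtain ⟨v, rfl⟩ := hrr u
    have h1 : σ • f.rangeRestrict v = f.rangeRestrict (σ • v) := by
      apply Subtype.ext
      exact (hf σ v).symm
    rw [h1, hπ, hπ, hg]

end Fermat.Agent.S32L
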