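/-
S32 architecture (helper3): **closure properties of admissibility** (`S32Adm`) and of the
embedding property (`S32Emb`).

* `s32g_exists_factor`, `s32g_subquot_finite` : the factorisation behind `s32g_subquot`;
* `S32Adm.of_ker`        : `Λ` is admissible if for every `m` there is an equivariant `f : Λ → Q` into a
  finite module with an order, with kernel exactly `p^m Λ`;
* `S32Adm.subsingleton`, `S32Adm.prod`, `S32Adm.pi`, `S32Adm.of_surjective_mod`;
* `S32Emb.top`, `S32Emb.inf`.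
-/
import Mathlib
import Fermat.Agent.Lib.S32.GMod

set_option autoImplicit false
set_option linter.unusedSectionVars false
set_option linter.style.haveILetI false

namespace Fermat.Agent.S32L

open Fermat.Agent.Alpha

local notation "Qb" => AlgebraicClosure ℚ
local notation "GQ" => (AlgebraicClosure ℚ ≃ₐ[ℚ] AlgebraicClosure ℚ)

section Factor

variable {V Q W : Type} [AddCommGroup V] [AddCommGroup Q] [AddCommGroup W]

/-- `g` factors through the range of `f` when `ker f ≤ ker g` -/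
theorem s32g_exists_factor (f : V →+ Q) (g : V →+ W) (hker : ∀ v, f v = 0 → g v = 0) :
    ∃ π : ↥f.range →+ W, ∀ v, π (f.rangeRestrict v) = g v := by
  have hrr : Function.Surjective f.rangeRestrict := f.rangeRestrict_surjective
  have hright : Function.RightInverse (Function.surjInv hrr) f.rangeRestrict :=
    Function.surjInv_eq hrr
  have hkerle : f.rangeRestrict.ker ≤ g.ker := by
    intro v hv
    rw [AddMonoidHom.mem_ker] at hv ⊢
    apply hker
    exact congrArg Subtype.val hv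
  exact ⟨f.rangeRestrict.liftOfRightInverse (Function.surjInv hrr) hright ⟨g, hkerle⟩,
    fun v => AddMonoidHom.liftOfRightInverse_comp_apply _ _ hright ⟨g, hkerle⟩ v⟩

/-- finiteness of a sub-quotient -/
theorem s32g_subquot_finite [Finite Q] (f : V →+ Q) (g : V →+ W)
    (hsurj : Function.Surjective g) (hker : ∀ v, f v = 0 → g v = 0) : Finite W := by
  obtain ⟨π, hπ⟩ := s32g_exists_factor f g hker
  haveI : Finite ↥f.range := Finite.of_injective _ Subtype.coe_injective
  refine Finite.of_surjective π ?_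
  intro w
  obtain ⟨v, rfl⟩ := hsurj w
  exact ⟨f.rangeRestrict v, hπ v⟩

end Factor

section Adm

variable {p : ℕ} [Fact p.Prime]

/-- the quotient map `Λ → Λ / p^m Λ`, as an additive map -/
noncomputable def s32Mk (p : ℕ) (Λ : Type) [AddCommGroup Λ] (m : ℕ) : Λ →+ Λ ⧸ s32K p Λ m :=
  QuotientAddGroup.mk' (s32K p Λ m)

theorem s32Mk_surjective (Λ : Type) [AddCommGroup Λ] (m : ℕ) :
    Function.Surjective (s32Mk p Λ m) := QuotientAddGroup.mk'_surjective _

theorem s32Mk_eq_zero_iff {Λ : Type} [AddCommGroup Λ] {m : ℕ} {x : Λ} :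
    s32Mk p Λ m x = 0 ↔ x ∈ s32K p Λ m :=
  QuotientAddGroup.eq_zero_iff x

/-- **criterion for admissibility** -/
theorem S32Adm.of_ker {Λ : Type} [AddCommGroup Λ] [DistribMulAction GQ Λ]
    (h : ∀ m : ℕ, ∃ (Q : Type) (_ : AddCommGroup Q) (_ : DistribMulAction GQ Q) (_ : Finite Q),
      AlphHasOrder p Q ∧ ∃ f : Λ →+ Q, (∀ (σ : GQ) (x : Λ), f (σ • x) = σ • f x) ∧
        ∀ x, f x = 0 → x ∈ s32K p Λ m) : S32Adm p Λ := by
  intro m
  obtain ⟨Q, i1, i2, i3, hQ, f, hf, hker⟩ := h m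
  letI := s32QuotAct (G := GQ) (s32K p Λ m) (fun σ x hx => s32K_stable p m σ x hx)
  have hker' : ∀ v, f v = 0 → s32Mk p Λ m v = 0 := fun v hv =>
    s32Mk_eq_zero_iff.mpr (hker v hv)
  exact ⟨s32g_subquot_finite f (s32Mk p Λ m) (s32Mk_surjective Λ m) hker',
    s32g_subquot hQ f (s32Mk p Λ m) hf (fun σ v => rfl) (s32Mk_surjective Λ m) hker'⟩

/-- the trivial module is admissible -/
theorem S32Adm.subsingleton {Λ : Type} [AddCommGroup Λ] [DistribMulAction GQ Λ] [Subsingleton Λ] :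
    S32Adm p Λ := by
  intro m
  letI := s32QuotAct (G := GQ) (s32K p Λ m) (fun σ x hx => s32K_stable p m σ x hx)
  haveI : Subsingleton (Λ ⧸ s32K p Λ m) := by
    refine ⟨fun x y => ?_⟩
    induction x using QuotientAddGroup.induction_on with
    | H x =>
      induction y using QuotientAddGroup.induction_on with
      | H y => rw [Subsingleton.elim x y]
  exact ⟨inferInstance, s32g_subsingleton⟩

/-- products of admissible modules are admissible -/
theorem S32Adm.prod {Λ₁ Λ₂ : Type} [AddCommGroup Λ₁] [DistribMulAction GQ Λ₁] [AddCommGroup Λ₂]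
    [DistribMulAction GQ Λ₂] (h₁ : S32Adm p Λ₁) (h₂ : S32Adm p Λ₂) : S32Adm p (Λ₁ × Λ₂) := by
  apply S32Adm.of_ker
  intro m
  letI := s32QuotAct (G := GQ) (s32K p Λ₁ m) (fun σ x hx => s32K_stable p m σ x hx)
  letI := s32QuotAct (G := GQ) (s32K p Λ₂ m) (fun σ x hx => s32K_stable p m σ x hx)
  haveI := (h₁ m).1
  haveI := (h₂ m).1
  refine ⟨(Λ₁ ⧸ s32K p Λ₁ m) × (Λ₂ ⧸ s32K p Λ₂ m), inferInstance, inferInstance, inferInstance,
    (h₁ m).2.prod (h₂ m).2,
    ((s32Mk p Λ₁ m).comp (AddMonoidHom.fst Λ₁ Λ₂)).prod ((s32Mk p Λ₂ m).comp (AddMonoidHom.snd Λ₁ Λ₂)),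
    fun σ x => rfl, fun x hx => ?_⟩
  have h1 : s32Mk p Λ₁ m x.1 = 0 := congrArg Prod.fst hx
  have h2 : s32Mk p Λ₂ m x.2 = 0 := congrArg Prod.snd hx
  obtain ⟨y₁, hy₁⟩ := s32Mk_eq_zero_iff.mp h1
  obtain ⟨y₂, hy₂⟩ := s32Mk_eq_zero_iff.mp h2
  refine ⟨(y₁, y₂), ?_⟩
  apply Prod.ext
  · exact hy₁
  · exact hy₂

/-- finite powers of admissible modules are admissible -/
theorem S32Adm.pi {Λ : Type} [AddCommGroup Λ] [DistribMulAction GQ Λ] (h : S32Adm p Λ) (d : ℕ) :
    S32Adm p (Fin d → Λ) := by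
  apply S32Adm.of_ker
  intro m
  letI := s32QuotAct (G := GQ) (s32K p Λ m) (fun σ x hx => s32K_stable p m σ x hx)
  haveI := (h m).1
  let f : (Fin d → Λ) →+ (Fin d → Λ ⧸ s32K p Λ m) :=
    { toFun := fun x i => s32Mk p Λ m (x i)
      map_zero' := by funext i; exact map_zero _
      map_add' := fun x y => by funext i; exact map_add _ _ _ }
  refine ⟨Fin d → Λ ⧸ s32K p Λ m, inferInstance, inferInstance, inferInstance,
    s32g_pi (h m).2 d, f, fun σ x => rfl, fun x hx => ?_⟩
  have h1 : ∀ i, x i ∈ s32K p Λ m := fun i => s32Mk_eq_zero_iff.mp (congrFun hx i)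
  choose y hy using h1
  exact ⟨y, funext fun i => hy i⟩

/-- a module which is, modulo every power of `p`, an equivariant image of an admissible module is
admissible -/
theorem S32Adm.of_surjective_mod {Λ' Λ : Type} [AddCommGroup Λ'] [DistribMulAction GQ Λ']
    [AddCommGroup Λ] [DistribMulAction GQ Λ] (h : S32Adm p Λ') (s : Λ' →+ Λ)
    (hs : ∀ (σ : GQ) (x : Λ'), s (σ • x) = σ • s x)
    (hsurj : ∀ (m : ℕ) (x : Λ), ∃ (x' : Λ') (y : Λ), x = s x' + p ^ m • y) : S32Adm p Λ := by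
  intro m
  letI := s32QuotAct (G := GQ) (s32K p Λ' m) (fun σ x hx => s32K_stable p m σ x hx)
  letI := s32QuotAct (G := GQ) (s32K p Λ m) (fun σ x hx => s32K_stable p m σ x hx)
  haveI := (h m).1
  have hsurj' : Function.Surjective ((s32Mk p Λ m).comp s) := by
    intro w
    obtain ⟨x, rfl⟩ := s32Mk_surjective Λ m w
    obtain ⟨x', y, rfl⟩ := hsurj m x
    refine ⟨x', ?_⟩
    rw [map_add, AddMonoidHom.comp_apply]
    have : s32Mk p Λ m (p ^ m • y) = 0 := s32Mk_eq_zero_iff.mpr ⟨y, rfl⟩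
    rw [this, add_zero]
  have hker : ∀ v, s32Mk p Λ' m v = 0 → ((s32Mk p Λ m).comp s) v = 0 := by
    intro v hv
    obtain ⟨y, rfl⟩ := s32Mk_eq_zero_iff.mp hv
    rw [AddMonoidHom.comp_apply]
    refine s32Mk_eq_zero_iff.mpr ⟨s y, ?_⟩
    show p ^ m • s y = s (p ^ m • y)
    rw [map_nsmul]
  exact ⟨s32g_subquot_finite (s32Mk p Λ' m) _ hsurj' hker,
    s32g_subquot (h m).2 (s32Mk p Λ' m) ((s32Mk p Λ m).comp s) (fun σ v => rfl)
      (fun σ v => by
        rw [AddMonoidHom.comp_apply, AddMonoidHom.comp_apply, hs]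
        rfl) hsurj' hker⟩

end Adm

section Emb

variable {p : ℕ} [Fact p.Prime] {T V : Type} [CommRing T] [AddCommGroup V] [Module T V]
  (ρ : GQ →* Module.End T V)

/-- the base of the induction over the points -/
theorem S32Emb.top : S32Emb p ρ ⊤ := by
  letI : DistribMulAction GQ PUnit :=
    { smul := fun _ x => x
      one_smul := fun _ => rfl
      mul_smul := fun _ _ _ => rfl
      smul_zero := fun _ => rfl
      smul_add := fun _ _ _ => rfl }
  refine ⟨PUnit, inferInstance, inferInstance, inferInstance, inferInstance,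
    S32Adm.subsingleton, 0, fun σ v => rfl, ?_⟩
  rw [Submodule.top_smul]
  exact le_top

/-- membership in `J V` in coordinates -/
theorem s32_mem_smul_top_iff {ι : Type*} (b : Module.Basis ι T V) (J : Ideal T) (x : V) :
    x ∈ J • (⊤ : Submodule T V) ↔ ∀ i, b.repr x i ∈ J := by
  constructor
  · intro hx
    refine Submodule.smul_induction_on hx ?_ ?_
    · intro a ha w _ i
      rw [map_smul, Finsupp.smul_apply, smul_eq_mul]
      exact J.mul_mem_right _ ha
    · intro y z hy hz i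
      rw [map_add, Finsupp.add_apply]
      exact J.add_mem (hy i) (hz i)
  · intro h
    rw [← b.linearCombination_repr x, Finsupp.linearCombination_apply]
    refine Submodule.sum_mem _ fun i _ => ?_
    exact Submodule.smul_mem_smul (h i) Submodule.mem_top

/-- for a free module, `J₁ V ⊓ J₂ V ≤ (J₁ ⊓ J₂) V` -/
theorem s32_smul_top_inf [Module.Free T V] (J₁ J₂ : Ideal T) :
    J₁ • (⊤ : Submodule T V) ⊓ J₂ • (⊤ : Submodule T V) ≤ (J₁ ⊓ J₂) • (⊤ : Submodule T V) := by
  classical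
  let b := Module.Free.chooseBasis T V
  intro x hx
  rw [Submodule.mem_inf, s32_mem_smul_top_iff b, s32_mem_smul_top_iff b] at hx
  rw [s32_mem_smul_top_iff b]
  exact fun i => ⟨hx.1 i, hx.2 i⟩

/-- the step of the induction over the points -/
theorem S32Emb.inf [Module.Free T V] {J₁ J₂ : Ideal T} (h₁ : S32Emb p ρ J₁) (h₂ : S32Emb p ρ J₂) :
    S32Emb p ρ (J₁ ⊓ J₂) := by
  obtain ⟨Λ₁, i1, i2, i3, i4, hadm₁, j₁, hj₁, hk₁⟩ := h₁
  obtain ⟨Λ₂, k1, k2, k3, k4, hadm₂, j₂, hj₂, hk₂⟩ := h₂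
  refine ⟨Λ₁ × Λ₂, inferInstance, inferInstance, inferInstance, inferInstance,
    hadm₁.prod hadm₂, j₁.prod j₂, fun σ v => ?_, ?_⟩
  · apply Prod.ext
    · exact hj₁ σ v
    · exact hj₂ σ v
  · refine le_trans ?_ (s32_smul_top_inf J₁ J₂)
    intro x hx
    rw [LinearMap.mem_ker, LinearMap.prod_apply, Prod.mk_eq_zero] at hx
    exact ⟨hk₁ (LinearMap.mem_ker.mpr hx.1), hk₂ (LinearMap.mem_ker.mpr hx.2)⟩

end Emb

end Fermat.Agent.S32L
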