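/-
S32 architecture (helper3): **the endgame**.

* `s32_order_of_emb` : if `V` embeds equivariantly into an admissible finite `T`-module (`S32Emb p ρ ⊥`),
  then (Artin–Rees) `V / I V` has a Hopf order over `ℤ_(p)` for every ideal `I ∋ p^a`;
* `s32_exists_pow_mem` : a finite-index ideal of a local ring of residue characteristic `p` contains
  a power of `p`;
* `s32_isFlatAt_of_emb` : `ρ.IsFlatAt p` for `ρ : GaloisRepAdic T` with `S32Emb p ρ.ρ ⊥`.
-/
import Mathlib
import Fermat.Prelude.Def_GaloisRep_Flat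
import Fermat.Agent.Lib.S32.Adm

set_option autoImplicit false
set_option linter.unusedSectionVars false
set_option linter.style.haveILetI false

namespace Fermat.Agent.S32L

open Fermat.Agent.Alpha IsLocalRing

local notation "Qb" => AlgebraicClosure ℚ
local notation "GQ" => (AlgebraicClosure ℚ ≃ₐ[ℚ] AlgebraicClosure ℚ)

section Quot

variable {T V : Type} [CommRing T] [AddCommGroup V] [Module T V] (ρ : GQ →* Module.End T V)

theorem s32_smul_top_le_comap (I : Ideal T) (σ : GQ) :
    I • (⊤ : Submodule T V) ≤ (I • (⊤ : Submodule T V)).comap (ρ σ) := by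
  rw [← Submodule.map_le_iff_le_comap, Submodule.map_smul'']
  exact Submodule.smul_mono le_rfl le_top

/-- the representation on `V / I V` -/
noncomputable def s32LevelRep (I : Ideal T) :
    GQ →* Module.End T (V ⧸ (I • (⊤ : Submodule T V))) where
  toFun σ := Submodule.mapQ _ _ (ρ σ) (s32_smul_top_le_comap ρ I σ)
  map_one' := by
    apply LinearMap.ext
    intro x
    induction x using Submodule.Quotient.induction_on with
    | H x =>
      rw [Submodule.mapQ_apply, map_one]
      rfl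
  map_mul' σ τ := by
    apply LinearMap.ext
    intro x
    induction x using Submodule.Quotient.induction_on with
    | H x =>
      rw [Submodule.mapQ_apply, map_mul]
      rfl

theorem s32LevelRep_mk (I : Ideal T) (σ : GQ) (x : V) :
    s32LevelRep ρ I σ (Submodule.Quotient.mk x) = Submodule.Quotient.mk (ρ σ x) := rfl

end Quot

section Order

variable {p : ℕ} [Fact p.Prime] {T V : Type} [CommRing T] [IsNoetherianRing T] [AddCommGroup V]
  [Module T V] (ρ : GQ →* Module.End T V)

/-- **Artin–Rees**: for an injective `j : V → Λ` into a finite module and every `a` there is `m` with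
`j⁻¹ (p^m Λ) ⊆ p^a V` -/
theorem s32_artin_rees {Λ : Type} [AddCommGroup Λ] [Module T Λ] [Module.Finite T Λ]
    (j : V →ₗ[T] Λ) (hj : Function.Injective j) (a : ℕ) :
    ∃ m : ℕ, ∀ v : V, j v ∈ s32K p Λ m → ∃ v' : V, v = (p : T) ^ a • v' := by
  obtain ⟨k, hk⟩ := Ideal.exists_pow_inf_eq_pow_smul (Ideal.span {(p : T)}) (LinearMap.range j)
  refine ⟨a + k, fun v hv => ?_⟩
  obtain ⟨y, hy⟩ := (mem_s32K p).mp hv
  have hmem : j v ∈ Ideal.span {(p : T)} ^ (a + k) • (⊤ : Submodule T Λ) ⊓ LinearMap.range j := by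
    refine ⟨?_, LinearMap.mem_range_self j v⟩
    rw [← hy]
    have h1 : p ^ (a + k) • y = ((p : T) ^ (a + k)) • y := by
      rw [← Nat.cast_pow, Nat.cast_smul_eq_nsmul]
    rw [h1]
    exact Submodule.smul_mem_smul (Ideal.pow_mem_pow (Ideal.mem_span_singleton_self _) _)
      Submodule.mem_top
  rw [hk (a + k) (Nat.le_add_left k a), Nat.add_sub_cancel, Ideal.span_singleton_pow] at hmem
  have hle : Ideal.span {(p : T) ^ a} •
      (Ideal.span {(p : T)} ^ k • (⊤ : Submodule T Λ) ⊓ LinearMap.range j) ≤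
      Ideal.span {(p : T) ^ a} • LinearMap.range j := Submodule.smul_mono le_rfl inf_le_right
  have h2 := hle hmem
  rw [Submodule.ideal_span_singleton_smul] at h2
  obtain ⟨_, ⟨v', rfl⟩, hv'⟩ := h2
  refine ⟨v', hj ?_⟩
  rw [map_smul]
  exact hv'.symm

/-- **Hopf orders for the quotients `V / I V`** -/
theorem s32_order_of_emb (hemb : S32Emb p ρ ⊥) (I : Ideal T) (a : ℕ) (ha : (p : T) ^ a ∈ I) :
    Finite (V ⧸ (I • (⊤ : Submodule T V))) ∧
      @AlphHasOrder p (V ⧸ (I • (⊤ : Submodule T V))) _ (s32Act (s32LevelRep ρ I)) := by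
  obtain ⟨Λ, i1, i2, i3, i4, hadm, j, hj, hker⟩ := hemb
  have hinj : Function.Injective j := by
    rw [← LinearMap.ker_eq_bot, eq_bot_iff]
    refine hker.trans ?_
    rw [Submodule.bot_smul]
  obtain ⟨m, hm⟩ := s32_artin_rees (p := p) j hinj a
  letI := s32QuotAct (G := GQ) (s32K p Λ m) (fun σ x hx => s32K_stable p m σ x hx)
  letI : DistribMulAction GQ V := s32Act ρ
  letI : DistribMulAction GQ (V ⧸ (I • (⊤ : Submodule T V))) := s32Act (s32LevelRep ρ I)
  haveI := (hadm m).1
  let f : V →+ Λ ⧸ s32K p Λ m := (s32Mk p Λ m).comp j.toAddMonoidHom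
  let g : V →+ V ⧸ (I • (⊤ : Submodule T V)) := (Submodule.mkQ _).toAddMonoidHom
  have hgsurj : Function.Surjective g := Submodule.mkQ_surjective _
  have hkerfg : ∀ v, f v = 0 → g v = 0 := by
    intro v hv
    have h1 : j v ∈ s32K p Λ m := s32Mk_eq_zero_iff.mp hv
    obtain ⟨v', rfl⟩ := hm v h1
    show Submodule.mkQ _ ((p : T) ^ a • v') = 0
    rw [Submodule.mkQ_apply, Submodule.Quotient.mk_eq_zero]
    exact Submodule.smul_mem_smul ha Submodule.mem_top
  have hf : ∀ (σ : GQ) (v : V), f (σ • v) = σ • f v := by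
    intro σ v
    show s32Mk p Λ m (j (ρ σ v)) = σ • s32Mk p Λ m (j v)
    rw [hj]
    rfl
  exact ⟨s32g_subquot_finite f g hgsurj hkerfg,
    s32g_subquot (hadm m).2 f g hf (fun σ v => rfl) hgsurj hkerfg⟩

end Order

/-- a finite-index ideal of a local ring of residue characteristic `p` contains a power of `p` -/
theorem s32_exists_pow_mem {T : Type} [CommRing T] [IsLocalRing T] {p : ℕ} (hp : p.Prime)
    (hpT : (p : T) ∈ maximalIdeal T) (I : Ideal T) [Finite (T ⧸ I)] : ∃ a : ℕ, (p : T) ^ a ∈ I := by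
  classical
  have hn0 : Nat.card (T ⧸ I) ≠ 0 := Nat.card_pos.ne'
  have hnI : ((Nat.card (T ⧸ I) : ℕ) : T) ∈ I := by
    rw [← Ideal.Quotient.eq_zero_iff_mem, map_natCast]
    have := card_nsmul_eq_zero' (G := T ⧸ I) (x := 1)
    rwa [nsmul_one] at this
  obtain ⟨a, n', hn', hn⟩ := Nat.exists_eq_pow_mul_and_not_dvd hn0 p hp.ne_one
  refine ⟨a, ?_⟩
  have hunit : IsUnit ((n' : ℕ) : T) := by
    by_contra hnu
    have hmem : ((n' : ℕ) : T) ∈ maximalIdeal T := (mem_maximalIdeal _).mpr hnu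
    have hcop : Nat.Coprime n' p := (Nat.Coprime.symm ((Nat.Prime.coprime_iff_not_dvd hp).mpr hn'))
    have hbez : (n' : ℤ) * Nat.gcdA n' p + (p : ℤ) * Nat.gcdB n' p = 1 := by
      have := Nat.gcd_eq_gcd_ab n' p
      rw [hcop] at this
      exact_mod_cast this.symm
    have h1 : ((1 : ℤ) : T) ∈ maximalIdeal T := by
      rw [← hbez]
      push_cast
      exact Ideal.add_mem _ (Ideal.mul_mem_right _ _ hmem) (Ideal.mul_mem_right _ _ hpT)
    rw [Int.cast_one] at h1
    exact (maximalIdeal.isMaximal T).ne_top ((Ideal.eq_top_iff_one _).mpr h1)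
  rw [hn] at hnI
  push_cast at hnI
  exact (Ideal.mul_unit_mem_iff_mem I hunit).mp hnI

/-- **flatness from an embedding into an admissible module** -/
theorem s32_isFlatAt_of_emb {T : Type} [CommRing T] [IsLocalRing T] [IsNoetherianRing T]
    (ρ : GaloisRepAdic T) {p : ℕ} [Fact p.Prime] (hfin : Finite (ResidueField T))
    (hpT : (p : T) ∈ maximalIdeal T) (hemb : S32Emb p ρ.ρ ⊥) : ρ.IsFlatAt p := by
  refine ⟨hfin, fun I hI => ?_⟩
  haveI := hI
  obtain ⟨a, ha⟩ := s32_exists_pow_mem (Fact.out : p.Prime) hpT I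
  obtain ⟨hfinW, hord⟩ := s32_order_of_emb ρ.ρ hemb I a ha
  letI : DistribMulAction GQ (ρ.V ⧸ (I • (⊤ : Submodule T ρ.V))) := s32Act (s32LevelRep ρ.ρ I)
  letI : Fintype (ρ.V ⧸ (I • (⊤ : Submodule T ρ.V))) := Fintype.ofFinite _
  obtain ⟨H', i1, i2, h1, h2, h3, e, he1, he2⟩ := hord.flat
  exact ⟨H', i1, i2, h1, h2, h3, e, he1, fun σ f g hfg => he2 σ f g hfg⟩

end Fermat.Agent.S32L
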